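import Fermat.Agent.LT.T7.H193.KillSpec

/-!
# Row LT, tower T7, node T7.L2.1 `SupplyC`, sub-station NATURAL, leaf `T7.L2.1.N06 NatConvC`
# (helper953, registry row 2203), OFF-MAIN

`natConvC953 (K) : H193.NatConvC K`, VERBATIM against `LT/T7/H193/KillSpec.lean`
(helper193@4a1c7c2bb, sha256 2cb0a205…, byte-identical copy).

`♮` commutes with the convolution on either side:
`φ₁♮ ⋆ φ₂ = (φ₁ ⋆ φ₂)♮ = φ₁ ⋆ φ₂♮`, where `φ♮ (g) = vol(D)⁻¹ ∫_D φ(g a(t)⁻¹) dt`.

* `fubini_cpt953` : Fubini on `G × D` for a bounded continuous integrand supported, in the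
  first variable, in a compact set (`μ` finite on compact sets, `D` of finite volume; no
  `σ`-finiteness of `μ` is needed: both measures are restricted to sets of finite measure).
* right side: Fubini only;
* left side: Fubini, the right invariance of `μ` (`IsFrame.right_inv`, `y ↦ y a(t)`) and the
  centrality of `a t`.

The hypothesis `T1.T1Out K` is not used.
-/

set_option autoImplicit false
set_option linter.unusedSectionVars false
set_option linter.style.haveILetI false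
set_option linter.unusedVariables false

open IsDedekindDomain NumberField MeasureTheory
open scoped ComplexConjugate

noncomputable section

namespace Fermat.Agent.LT.T7.H953

open Fermat.Agent.LT.H556 Fermat.Agent.LT.H556.A0 Fermat.Agent.LT Fermat.Agent.LT.T7.H193

attribute [local instance] Fermat.Agent.LT.T5.instMeasurableSpaceG

variable {K : Type} [Field K] [NumberField K]

/-- The Borel structure of `GL₂(𝔸_K)` (the measurable space is `borel` by definition). -/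
theorem borelSpaceG953 : BorelSpace (G K) := ⟨rfl⟩

/-- **Fubini** on `G × D` for a bounded continuous integrand with compact support in the first
variable. -/
theorem fubini_cpt953 (μ : Measure (G K)) [IsFiniteMeasureOnCompacts μ]
    (D : Set (InfinitePlace K → ℝ)) (hDfin : volume D < ⊤)
    (F : G K → (InfinitePlace K → ℝ) → ℂ) (hF : Continuous (Function.uncurry F))
    (C : Set (G K)) (hC : IsCompact C) (hsupp : ∀ y, y ∉ C → ∀ t, F y t = 0)
    (M : ℝ) (hM : ∀ y t, ‖F y t‖ ≤ M) :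
    ∫ y, (∫ t in D, F y t) ∂μ = ∫ t in D, (∫ y, F y t ∂μ) := by
  haveI : BorelSpace (G K) := borelSpaceG953
  have hμC : μ C < ⊤ := hC.measure_lt_top
  haveI : Fact (μ C < ⊤) := ⟨hμC⟩
  haveI : Fact (volume D < ⊤) := ⟨hDfin⟩
  have h1 : ∫ y, (∫ t in D, F y t) ∂μ = ∫ y in C, (∫ t in D, F y t) ∂μ := by
    symm
    apply setIntegral_eq_integral_of_forall_compl_eq_zero
    intro y hy
    have : (fun t => F y t) = fun _ => (0 : ℂ) := funext fun t => hsupp y hy t
    rw [this, integral_zero]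
  have h2 : (fun t => ∫ y, F y t ∂μ) = fun t => ∫ y in C, F y t ∂μ := by
    funext t
    symm
    exact setIntegral_eq_integral_of_forall_compl_eq_zero (fun y hy => hsupp y hy t)
  rw [h1, h2]
  apply integral_integral_swap
  refine Integrable.mono' (integrable_const M) hF.aestronglyMeasurable
    (Filter.Eventually.of_forall fun p => hM p.1 p.2)

/-- **Leaf `T7.L2.1.N06 NatConvC`.** -/
theorem natConvC953 (K : Type) [Field K] [NumberField K] : NatConvC K := by
  intro _hT1 R hR 𝔑 r a D hD φ₁ φ₂ hφ₁ hφ₁c hφ₂ hφ₂c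
  haveI : BorelSpace (G K) := borelSpaceG953
  haveI : R.μ.IsHaarMeasure := hR.frame.haar
  haveI : R.μ.IsMulRightInvariant := ⟨fun g => by
    ext A hA
    rw [Measure.map_apply (measurable_mul_const g) hA]
    exact hR.frame.right_inv g A hA⟩
  have hDfin : volume D < ⊤ := hD.bdd.measure_lt_top
  obtain ⟨M₁, hM₁⟩ := hφ₁.bounded_above_of_compact_support hφ₁c
  obtain ⟨M₂, hM₂⟩ := hφ₂.bounded_above_of_compact_support hφ₂c
  have hM₁0 : 0 ≤ M₁ := le_trans (norm_nonneg _) (hM₁ 1)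
  have hainv : Continuous fun t : InfinitePlace K → ℝ => (a t)⁻¹ := hD.cont.inv
  have hbound : ∀ x y : G K, ‖φ₁ x * φ₂ y‖ ≤ M₁ * M₂ := fun x y => by
    rw [norm_mul]
    exact mul_le_mul (hM₁ x) (hM₂ y) (norm_nonneg _) hM₁0
  have hcen : ∀ (t : InfinitePlace K → ℝ) (x : G K), (a t)⁻¹ * x = x * (a t)⁻¹ := by
    intro t x
    have h := hD.central t x
    calc (a t)⁻¹ * x = (a t)⁻¹ * (x * a t) * (a t)⁻¹ := by group
      _ = (a t)⁻¹ * (a t * x) * (a t)⁻¹ := by rw [h]
      _ = x * (a t)⁻¹ := by group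
  constructor
  · intro g
    show ∫ y, nat193 a D φ₁ y * φ₂ (y⁻¹ * g) ∂(R.μ) = nat193 a D (T5.conv R.μ φ₁ φ₂) g
    unfold nat193 T5.conv
    have e1 : (fun y : G K => ((((volume D).toReal : ℝ) : ℂ)⁻¹ *
          ∫ t in D, φ₁ (y * (a t)⁻¹)) * φ₂ (y⁻¹ * g)) =
        fun y => (((volume D).toReal : ℝ) : ℂ)⁻¹ *
          ∫ t in D, φ₁ (y * (a t)⁻¹) * φ₂ (y⁻¹ * g) := by
      funext y
      rw [mul_assoc, ← integral_mul_const]
    rw [e1, integral_const_mul]
    congr 1
    rw [fubini_cpt953 R.μ D hDfin (fun y t => φ₁ (y * (a t)⁻¹) * φ₂ (y⁻¹ * g)) ?_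
      ((fun y : G K => g * y⁻¹) '' tsupport φ₂) ?_ ?_ (M₁ * M₂) (fun y t => hbound _ _)]
    · refine setIntegral_congr_fun hD.meas fun t _ => ?_
      show ∫ y, φ₁ (y * (a t)⁻¹) * φ₂ (y⁻¹ * g) ∂(R.μ)
        = ∫ y, φ₁ y * φ₂ (y⁻¹ * (g * (a t)⁻¹)) ∂(R.μ)
      rw [← integral_mul_right_eq_self (fun y => φ₁ (y * (a t)⁻¹) * φ₂ (y⁻¹ * g)) (a t)]
      refine integral_congr_ae (Filter.Eventually.of_forall fun y => ?_)
      show φ₁ (y * a t * (a t)⁻¹) * φ₂ ((y * a t)⁻¹ * g) = φ₁ y * φ₂ (y⁻¹ * (g * (a t)⁻¹))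
      rw [mul_inv_cancel_right, mul_inv_rev, mul_assoc, hcen t (y⁻¹ * g), mul_assoc]
    · show Continuous fun p : G K × (InfinitePlace K → ℝ) =>
        φ₁ (p.1 * (a p.2)⁻¹) * φ₂ (p.1⁻¹ * g)
      exact (hφ₁.comp (continuous_fst.mul (hainv.comp continuous_snd))).mul
        (hφ₂.comp (continuous_fst.inv.mul continuous_const))
    · exact hφ₂c.isCompact.image (continuous_const.mul continuous_inv)
    · intro y hy t
      have h0 : φ₂ (y⁻¹ * g) = 0 := by
        by_contra hne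
        apply hy
        refine ⟨y⁻¹ * g, subset_tsupport _ hne, ?_⟩
        show g * (y⁻¹ * g)⁻¹ = y
        group
      show φ₁ (y * (a t)⁻¹) * φ₂ (y⁻¹ * g) = 0
      rw [h0, mul_zero]
  · intro g
    show ∫ y, φ₁ y * nat193 a D φ₂ (y⁻¹ * g) ∂(R.μ) = nat193 a D (T5.conv R.μ φ₁ φ₂) g
    unfold nat193 T5.conv
    have e1 : (fun y : G K => φ₁ y * ((((volume D).toReal : ℝ) : ℂ)⁻¹ *
          ∫ t in D, φ₂ (y⁻¹ * g * (a t)⁻¹))) =
        fun y => (((volume D).toReal : ℝ) : ℂ)⁻¹ *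
          ∫ t in D, φ₁ y * φ₂ (y⁻¹ * g * (a t)⁻¹) := by
      funext y
      rw [mul_left_comm, ← integral_const_mul]
    rw [e1, integral_const_mul]
    congr 1
    rw [fubini_cpt953 R.μ D hDfin (fun y t => φ₁ y * φ₂ (y⁻¹ * g * (a t)⁻¹)) ?_
      (tsupport φ₁) hφ₁c.isCompact ?_ (M₁ * M₂) (fun y t => hbound _ _)]
    · refine setIntegral_congr_fun hD.meas fun t _ => ?_
      show ∫ y, φ₁ y * φ₂ (y⁻¹ * g * (a t)⁻¹) ∂(R.μ)
        = ∫ y, φ₁ y * φ₂ (y⁻¹ * (g * (a t)⁻¹)) ∂(R.μ)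
      refine integral_congr_ae (Filter.Eventually.of_forall fun y => ?_)
      show φ₁ y * φ₂ (y⁻¹ * g * (a t)⁻¹) = φ₁ y * φ₂ (y⁻¹ * (g * (a t)⁻¹))
      rw [mul_assoc]
    · show Continuous fun p : G K × (InfinitePlace K → ℝ) =>
        φ₁ p.1 * φ₂ (p.1⁻¹ * g * (a p.2)⁻¹)
      exact (hφ₁.comp continuous_fst).mul
        (hφ₂.comp ((continuous_fst.inv.mul continuous_const).mul (hainv.comp continuous_snd)))
    · intro y hy t
      show φ₁ y * φ₂ (y⁻¹ * g * (a t)⁻¹) = 0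
      rw [image_eq_zero_of_notMem_tsupport hy, zero_mul]

end Fermat.Agent.LT.T7.H953

end
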